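/-
MAZ / S12 one-step route (helper51), Mathlib only: from the three pairwise isogeny identities
(`EF86.IsCyclicSup.pair_identity`) and the size of the kernel products to a contradiction.

`e = (0, A, -B)` are the `2`-torsion abscissas of `y² = x (x - A) (x + B)`, `e'` those of the
normalised quotient by a cyclic subgroup `N` of odd order `p`, `P m = ∏_{t ∈ (N \ 0)/±} (x t - e m)`.
-/
import Fermat.Agent.MAZ.OneStep51.Ineq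

namespace Fermat.Agent.MAZ.OneStep51.Algebra

variable {K : Type*} [Field K]

/-- The three pair identities imply the generalised Fermat identity
`(e₁ - e₂)^p P₃⁴ - (e₁ - e₃)^p P₂⁴ + (e₂ - e₃)^p P₁⁴ = 0`. -/
theorem fermat_identity {p : ℕ} {e₁ e₂ e₃ e₁' e₂' e₃' P₁ P₂ P₃ : K}
    (I12 : (e₁' - e₂') * P₁ ^ 2 * P₂ ^ 2 = (e₁ - e₂) ^ p * P₃ ^ 2)
    (I13 : (e₁' - e₃') * P₁ ^ 2 * P₃ ^ 2 = (e₁ - e₃) ^ p * P₂ ^ 2)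
    (I23 : (e₂' - e₃') * P₂ ^ 2 * P₃ ^ 2 = (e₂ - e₃) ^ p * P₁ ^ 2) :
    (e₁ - e₂) ^ p * P₃ ^ 4 - (e₁ - e₃) ^ p * P₂ ^ 4 + (e₂ - e₃) ^ p * P₁ ^ 4 = 0 := by
  have h : ((e₁' - e₂') - (e₁' - e₃') + (e₂' - e₃')) * (P₁ * P₂ * P₃) ^ 2 = 0 := by ring
  linear_combination h - P₃ ^ 2 * I12 + P₂ ^ 2 * I13 - P₁ ^ 2 * I23

/-- Frey-shaped form: with `e = (0, A, -B)` and `p` odd,
`(A + B)^p P₁⁴ = A^p P₃⁴ + B^p P₂⁴`. -/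
theorem frey_identity {p : ℕ} (hp : Odd p) {A B e₁' e₂' e₃' P₁ P₂ P₃ : K}
    (I12 : (e₁' - e₂') * P₁ ^ 2 * P₂ ^ 2 = (0 - A) ^ p * P₃ ^ 2)
    (I13 : (e₁' - e₃') * P₁ ^ 2 * P₃ ^ 2 = (0 - -B) ^ p * P₂ ^ 2)
    (I23 : (e₂' - e₃') * P₂ ^ 2 * P₃ ^ 2 = (A - -B) ^ p * P₁ ^ 2) :
    (A + B) ^ p * P₁ ^ 4 = A ^ p * P₃ ^ 4 + B ^ p * P₂ ^ 4 := by
  have h := fermat_identity I12 I13 I23
  have h1 : (0 - A) ^ p = -A ^ p := by rw [zero_sub, hp.neg_pow]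
  have h2 : (0 - -B) ^ p = B ^ p := by rw [zero_sub, neg_neg]
  have h3 : (A - -B) ^ p = (A + B) ^ p := by rw [sub_neg_eq_add]
  rw [h1, h2, h3] at h
  linear_combination h

/-- With the sizes `P₁⁴ = 16^(p-1) P₂⁴ = P₃⁴` forced by the local analysis:
`16^(p-1) (A + B)^p = 16^(p-1) A^p + B^p`. -/
theorem final_equation {p : ℕ} (hp : Odd p) {A B e₁' e₂' e₃' P₁ P₂ P₃ : K}
    (hP₂ : P₂ ≠ 0)
    (I12 : (e₁' - e₂') * P₁ ^ 2 * P₂ ^ 2 = (0 - A) ^ p * P₃ ^ 2)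
    (I13 : (e₁' - e₃') * P₁ ^ 2 * P₃ ^ 2 = (0 - -B) ^ p * P₂ ^ 2)
    (I23 : (e₂' - e₃') * P₂ ^ 2 * P₃ ^ 2 = (A - -B) ^ p * P₁ ^ 2)
    (h₁ : P₁ ^ 4 = 16 ^ (p - 1) * P₂ ^ 4) (h₃ : P₃ ^ 4 = 16 ^ (p - 1) * P₂ ^ 4) :
    (16 : K) ^ (p - 1) * (A + B) ^ p = 16 ^ (p - 1) * A ^ p + B ^ p := by
  have h := frey_identity hp I12 I13 I23
  rw [h₁, h₃] at h
  have hP₂4 : P₂ ^ 4 ≠ 0 := pow_ne_zero 4 hP₂
  apply mul_right_cancel₀ hP₂4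
  linear_combination h

/-- **One-step contradiction.** Integers `A, B ≠ 0`, odd `p ≥ 3`: the pair identities together
with the sizes `P₁⁴ = 16^(p-1) P₂⁴ = P₃⁴` are contradictory (in any field of characteristic `0`). -/
theorem false_of_pair_identities [CharZero K] {p : ℕ} (hp : Odd p) (hp3 : 3 ≤ p) {A B : ℤ}
    (hA : A ≠ 0) (hB : B ≠ 0) {e₁' e₂' e₃' P₁ P₂ P₃ : K}
    (hP₂ : P₂ ≠ 0)
    (I12 : (e₁' - e₂') * P₁ ^ 2 * P₂ ^ 2 = (0 - (A : K)) ^ p * P₃ ^ 2)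
    (I13 : (e₁' - e₃') * P₁ ^ 2 * P₃ ^ 2 = (0 - -(B : K)) ^ p * P₂ ^ 2)
    (I23 : (e₂' - e₃') * P₂ ^ 2 * P₃ ^ 2 = ((A : K) - -(B : K)) ^ p * P₁ ^ 2)
    (h₁ : P₁ ^ 4 = 16 ^ (p - 1) * P₂ ^ 4) (h₃ : P₃ ^ 4 = 16 ^ (p - 1) * P₂ ^ 4) : False := by
  have h := final_equation hp hP₂ I12 I13 I23 h₁ h₃
  refine Ineq.int_ne hp hp3 hA hB ?_
  have : (((16 : ℤ) ^ (p - 1) * (A + B) ^ p : ℤ) : K) =
      ((16 ^ (p - 1) * A ^ p + B ^ p : ℤ) : K) := by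
    push_cast
    exact h
  exact_mod_cast this

/-- **One-step contradiction, scaled form.** The `2`-torsion abscissas `e₁, e₂, e₃` of the
source curve are only assumed to satisfy `e₁ - e₂ = -(s A)`, `e₁ - e₃ = s B` for integers
`A, B ≠ 0` and a scalar `s ≠ 0` (so the source curve is `y² = x (x - A) (x + B)` up to an affine
change `x ↦ s x + r`). -/
theorem false_of_pair_identities_scaled [CharZero K] {p : ℕ} (hp : Odd p) (hp3 : 3 ≤ p) {A B : ℤ}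
    (hA : A ≠ 0) (hB : B ≠ 0) {s e₁ e₂ e₃ e₁' e₂' e₃' P₁ P₂ P₃ : K} (hs : s ≠ 0)
    (h12 : e₁ - e₂ = -(s * A)) (h13 : e₁ - e₃ = s * B)
    (hP₂ : P₂ ≠ 0)
    (I12 : (e₁' - e₂') * P₁ ^ 2 * P₂ ^ 2 = (e₁ - e₂) ^ p * P₃ ^ 2)
    (I13 : (e₁' - e₃') * P₁ ^ 2 * P₃ ^ 2 = (e₁ - e₃) ^ p * P₂ ^ 2)
    (I23 : (e₂' - e₃') * P₂ ^ 2 * P₃ ^ 2 = (e₂ - e₃) ^ p * P₁ ^ 2)
    (h₁ : P₁ ^ 4 = 16 ^ (p - 1) * P₂ ^ 4) (h₃ : P₃ ^ 4 = 16 ^ (p - 1) * P₂ ^ 4) : False := by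
  have h23 : e₂ - e₃ = s * ((A : K) + B) := by linear_combination h13 - h12
  have hsp : s ^ p ≠ 0 := pow_ne_zero p hs
  have h := fermat_identity I12 I13 I23
  rw [h12, h13, h23, h₁, h₃, neg_pow' , mul_pow, mul_pow, mul_pow] at h
  have hm1 : ((-1 : K)) ^ p = -1 := hp.neg_one_pow
  rw [hm1] at h
  have hP₂4 : P₂ ^ 4 ≠ 0 := pow_ne_zero 4 hP₂
  have hfin : (16 : K) ^ (p - 1) * ((A : K) + B) ^ p = 16 ^ (p - 1) * (A : K) ^ p + (B : K) ^ p := by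
    apply mul_right_cancel₀ (mul_ne_zero hsp hP₂4)
    linear_combination h
  refine Ineq.int_ne hp hp3 hA hB ?_
  have : (((16 : ℤ) ^ (p - 1) * (A + B) ^ p : ℤ) : K) =
      ((16 ^ (p - 1) * A ^ p + B ^ p : ℤ) : K) := by
    push_cast
    exact hfin
  exact_mod_cast this

end Fermat.Agent.MAZ.OneStep51.Algebra
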