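/-
MAZ / S12 one-step route (helper51), Mathlib only: the elementary ending.

For an odd exponent `p ≥ 3` and nonzero reals `A`, `B`:
  `(A + B) ^ p ≠ A ^ p + B ^ p / 16 ^ (p - 1)`.
This is the equation which the quotient of a Frey-shaped curve `y² = x (x - A) (x + B)` by a
line `N ≅ μ_p` which is toric at every bad prime would have to satisfy (see report
`proposal-review` for S12 by helper51).
-/
import Mathlib

namespace Fermat.Agent.MAZ.OneStep51.Ineq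

/-- Positive case of the inequality: `A ^ p + B ^ p / 16 ^ (p - 1) < (A + B) ^ p`. -/
theorem lt_of_pos {p : ℕ} (hp : 2 ≤ p) {A B : ℝ} (hA : 0 < A) (hB : 0 < B) :
    A ^ p + B ^ p / 16 ^ (p - 1) < (A + B) ^ p := by
  have h1 : A ^ p + B ^ p ≤ (A + B) ^ p := pow_add_pow_le hA.le hB.le (by omega)
  have h16 : (1 : ℝ) < 16 ^ (p - 1) := one_lt_pow₀ (by norm_num) (by omega)
  have hBp : 0 < B ^ p := pow_pos hB p
  have h2 : B ^ p / 16 ^ (p - 1) < B ^ p := div_lt_self hBp h16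
  linarith

/-- Mixed case, `D ≤ A`: `(A - D) ^ p < A ^ p - D ^ p / 16 ^ (p - 1)`. -/
theorem lt_of_le {p : ℕ} (hp : 2 ≤ p) {A D : ℝ} (hD : 0 < D) (hDA : D ≤ A) :
    (A - D) ^ p < A ^ p - D ^ p / 16 ^ (p - 1) := by
  have h1 : (A - D) ^ p + D ^ p ≤ (A - D + D) ^ p :=
    pow_add_pow_le (sub_nonneg.mpr hDA) hD.le (by omega)
  rw [sub_add_cancel] at h1
  have h16 : (1 : ℝ) < 16 ^ (p - 1) := one_lt_pow₀ (by norm_num) (by omega)
  have hDp : 0 < D ^ p := pow_pos hD p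
  have h2 : D ^ p / 16 ^ (p - 1) < D ^ p := div_lt_self hDp h16
  linarith

/-- Mixed case, `A < D`: `D ^ p / 16 ^ (p - 1) < (D - A) ^ p + A ^ p`. -/
theorem lt_of_lt {p : ℕ} (hp : 2 ≤ p) {A D : ℝ} (hA : 0 < A) (hAD : A < D) :
    D ^ p / 16 ^ (p - 1) < (D - A) ^ p + A ^ p := by
  have hD : 0 < D := hA.trans hAD
  have h1 : (D - A + A) ^ p ≤ 2 ^ (p - 1) * ((D - A) ^ p + A ^ p) :=
    add_pow_le (sub_pos.mpr hAD).le hA.le p
  rw [sub_add_cancel] at h1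
  have h2pos : (0 : ℝ) < 2 ^ (p - 1) := by positivity
  have h16pos : (0 : ℝ) < 16 ^ (p - 1) := by positivity
  have hlt : (2 : ℝ) ^ (p - 1) < 16 ^ (p - 1) :=
    pow_lt_pow_left₀ (by norm_num) (by norm_num) (by omega)
  have hDp : 0 < D ^ p := pow_pos hD p
  have hS : 0 < (D - A) ^ p + A ^ p := by
    have := pow_pos hA p
    have := pow_nonneg (sub_pos.mpr hAD).le p
    linarith
  rw [div_lt_iff₀ h16pos]
  calc D ^ p ≤ 2 ^ (p - 1) * ((D - A) ^ p + A ^ p) := h1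
    _ < 16 ^ (p - 1) * ((D - A) ^ p + A ^ p) := mul_lt_mul_of_pos_right hlt hS
    _ = ((D - A) ^ p + A ^ p) * 16 ^ (p - 1) := mul_comm _ _

/-- Case `0 < A`. -/
theorem ne_of_pos {p : ℕ} (hp : Odd p) (hp3 : 3 ≤ p) {A B : ℝ} (hA : 0 < A) (hB : B ≠ 0) :
    (A + B) ^ p ≠ A ^ p + B ^ p / 16 ^ (p - 1) := by
  have hp2 : 2 ≤ p := by omega
  rcases lt_or_gt_of_ne hB with hB | hB
  · -- `B = -D`
    obtain ⟨D, hD, rfl⟩ : ∃ D : ℝ, 0 < D ∧ B = -D := ⟨-B, by linarith, by ring⟩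
    have hneg : (-D) ^ p = -D ^ p := hp.neg_pow D
    rw [hneg, ← sub_eq_add_neg, neg_div, ← sub_eq_add_neg]
    rcases le_or_gt D A with hDA | hAD
    · exact (lt_of_le hp2 hD hDA).ne
    · have h1 := lt_of_lt hp2 hA hAD
      have h2 : (A - D) ^ p = -(D - A) ^ p := by
        rw [← hp.neg_pow, neg_sub]
      rw [h2]
      intro h
      linarith
  · exact (lt_of_pos hp2 hA hB).ne'

/-- **The elementary ending.** For odd `p ≥ 3` and nonzero reals `A`, `B`: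
`(A + B) ^ p ≠ A ^ p + B ^ p / 16 ^ (p - 1)`. -/
theorem add_pow_ne {p : ℕ} (hp : Odd p) (hp3 : 3 ≤ p) {A B : ℝ} (hA : A ≠ 0) (hB : B ≠ 0) :
    (A + B) ^ p ≠ A ^ p + B ^ p / 16 ^ (p - 1) := by
  rcases lt_or_gt_of_ne hA with hA | hA
  · have h := ne_of_pos hp hp3 (A := -A) (B := -B) (by linarith) (neg_ne_zero.mpr hB)
    intro heq
    apply h
    have e1 : (-A + -B) ^ p = -(A + B) ^ p := by rw [← hp.neg_pow]; ring_nf
    rw [e1, hp.neg_pow, hp.neg_pow, heq]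
    ring
  · exact ne_of_pos hp hp3 hA hB

/-- Integer form without division: `16 ^ (p - 1) * (A + B) ^ p ≠ 16 ^ (p - 1) * A ^ p + B ^ p`. -/
theorem int_ne {p : ℕ} (hp : Odd p) (hp3 : 3 ≤ p) {A B : ℤ} (hA : A ≠ 0) (hB : B ≠ 0) :
    16 ^ (p - 1) * (A + B) ^ p ≠ 16 ^ (p - 1) * A ^ p + B ^ p := by
  intro h
  have hA' : (A : ℝ) ≠ 0 := by exact_mod_cast hA
  have hB' : (B : ℝ) ≠ 0 := by exact_mod_cast hB
  refine add_pow_ne hp hp3 hA' hB' ?_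
  have h16 : (16 : ℝ) ^ (p - 1) ≠ 0 := by positivity
  have hR : (16 : ℝ) ^ (p - 1) * ((A : ℝ) + B) ^ p = 16 ^ (p - 1) * (A : ℝ) ^ p + (B : ℝ) ^ p := by
    exact_mod_cast h
  field_simp
  linarith

/-- Rational form. -/
theorem rat_ne {p : ℕ} (hp : Odd p) (hp3 : 3 ≤ p) {A B : ℚ} (hA : A ≠ 0) (hB : B ≠ 0) :
    16 ^ (p - 1) * (A + B) ^ p ≠ 16 ^ (p - 1) * A ^ p + B ^ p := by
  intro h
  have hA' : (A : ℝ) ≠ 0 := by exact_mod_cast hA
  have hB' : (B : ℝ) ≠ 0 := by exact_mod_cast hB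
  refine add_pow_ne hp hp3 hA' hB' ?_
  have h16 : (16 : ℝ) ^ (p - 1) ≠ 0 := by positivity
  have hR : (16 : ℝ) ^ (p - 1) * ((A : ℝ) + B) ^ p = 16 ^ (p - 1) * (A : ℝ) ^ p + (B : ℝ) ^ p := by
    exact_mod_cast h
  field_simp
  linarith

end Fermat.Agent.MAZ.OneStep51.Ineq
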