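/-
MAZ / S12 one-step route (helper51): the lattice form of the one-step contradiction.

`L ⊂ L' = L + ℤ t₀` period lattices, `t₀` of exact odd order `p = 2 m + 1 ≥ 3` modulo `L`.
If the half-period values of `℘[L]` are those of a Frey-shaped curve
`y² = x (x - A) (x + B)` (up to an affine change `x ↦ s x + r`), and the kernel products
`PT L t₀ m Tᵢ = ∏_{k=1}^m (℘[L] (k t₀) - ℘[L] Tᵢ)` have the sizes forced by the local analysis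
(`P₁⁴ = 16^(p-1) P₂⁴ = P₃⁴`), we get a contradiction.  Uses helper86's `pair_identity`
(`MAZ/EF86`) made unconditional by helper18's addition theorem (`MAZ/Unif18`).
-/
import Fermat.Agent.MAZ.OneStep51.Algebra
import Fermat.Agent.MAZ.EF86.Uncond

namespace Fermat.Agent.MAZ.OneStep51.Lattice

open scoped PeriodPair
open Fermat.Agent.MAZ.EF86

variable {L L' : PeriodPair} {p : ℕ} {t₀ : ℂ}

/-- The three pair identities of an odd cyclic isogeny, unconditional. -/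
theorem pair_identities (h : IsCyclicSup L L' p t₀) {m : ℕ} (hp : p = 2 * m + 1)
    {T₁ T₂ T₃ : ℂ} (hT : HalfTriple L T₁ T₂ T₃) :
    (℘[L'] T₁ - ℘[L'] T₂) * IsCyclicSup.PT L t₀ m T₁ ^ 2 * IsCyclicSup.PT L t₀ m T₂ ^ 2 =
        (℘[L] T₁ - ℘[L] T₂) ^ p * IsCyclicSup.PT L t₀ m T₃ ^ 2 ∧
    (℘[L'] T₁ - ℘[L'] T₃) * IsCyclicSup.PT L t₀ m T₁ ^ 2 * IsCyclicSup.PT L t₀ m T₃ ^ 2 =
        (℘[L] T₁ - ℘[L] T₃) ^ p * IsCyclicSup.PT L t₀ m T₂ ^ 2 ∧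
    (℘[L'] T₂ - ℘[L'] T₃) * IsCyclicSup.PT L t₀ m T₂ ^ 2 * IsCyclicSup.PT L t₀ m T₃ ^ 2 =
        (℘[L] T₂ - ℘[L] T₃) ^ p * IsCyclicSup.PT L t₀ m T₁ ^ 2 :=
  ⟨h.pair_identity (addFormula L) (eqIff L) hp hT,
    h.pair_identity (addFormula L) (eqIff L) hp hT.swap₂₃,
    h.pair_identity (addFormula L) (eqIff L) hp hT.swap₁₂.swap₂₃⟩

/-- **One-step contradiction, lattice form.** -/
theorem false_of_isCyclicSup (h : IsCyclicSup L L' p t₀) {m : ℕ} (hp : p = 2 * m + 1)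
    (hm : 1 ≤ m) {T₁ T₂ T₃ : ℂ} (hT : HalfTriple L T₁ T₂ T₃) {A B : ℤ} (hA : A ≠ 0) (hB : B ≠ 0)
    {s : ℂ} (hs : s ≠ 0) (h12 : ℘[L] T₁ - ℘[L] T₂ = -(s * A)) (h13 : ℘[L] T₁ - ℘[L] T₃ = s * B)
    (h₁ : IsCyclicSup.PT L t₀ m T₁ ^ 4 = 16 ^ (p - 1) * IsCyclicSup.PT L t₀ m T₂ ^ 4)
    (h₃ : IsCyclicSup.PT L t₀ m T₃ ^ 4 = 16 ^ (p - 1) * IsCyclicSup.PT L t₀ m T₂ ^ 4) : False := by
  obtain ⟨I12, I13, I23⟩ := pair_identities h hp hT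
  have hodd : Odd p := ⟨m, hp⟩
  have hp3 : 3 ≤ p := by omega
  exact Algebra.false_of_pair_identities_scaled hodd hp3 hA hB hs h12 h13
    (h.PT_ne_zero (eqIff L) hp hT.notMem₂ hT.two₂) I12 I13 I23 h₁ h₃

end Fermat.Agent.MAZ.OneStep51.Lattice
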